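/-
Programme T1B (row 38 via S44), brick TORUS-INST (helper85's `Ker85.AsmHub`), item (4) (helper21):
**ELEMENTS OF THE GAUSS RING WHOSE RESIDUE HAS ORDER `∓ 1`** (abstract part).

`A` a valuation subring of `K`, `e : F →+* K((q))` an expansion, `gaussSub A e`, `gaussRes A e`
(helper3's `Hecke3/GaussVal`).

* `mem_gaussSub_of_eq_embA`, `gaussRes_of_eq_embA` : if `e f` is the image of an `A`-integral series
  `a`, then `f` is in the Gauss ring and its residue is the reduction of `a`;
* `order_tq` : the formal Hauptmodul `tq R n e = q⁻¹ + …` has order `-1` over every nontrivial ring;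
* `order_gaussRes_of_eq_tq`, `order_gaussRes_of_eq_tq_inv` : an element `w` of the Gauss ring with
  `e w = tq K n e'` (resp. `(tq K n e')⁻¹`) has a residue of order `-1` (resp. `1`);
* `not_dvd_order_sub_of_eq_tq`, `not_dvd_order_sub_of_eq_tq_inv` : the hypothesis `huv0`/`huv1` of
  `Ker85.mem_J1L_of_dl_eq_zero_hub` for `u` with expansion `t^{±1}` and `v` with residue `1`.
-/
import Mathlib
import Fermat.Agent.T1B.Hecke3.GaussVal
import Fermat.Agent.RED.BASE.EtaQuot12

set_option autoImplicit false
set_option linter.unusedSectionVars false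

noncomputable section

namespace Fermat.Agent.T1B.TorusInst21

open HahnSeries ModularCurve Fermat.Agent.T1B.Hecke3 Fermat.Agent.RED.BASE.EtaQuot12

/-! ### The order of the formal Hauptmodul -/

/-- `tq R n e = q⁻¹ + …` has order `-1`. -/
theorem order_tq (R : Type*) [CommRing R] [Nontrivial R] (n e : ℕ) [NeZero n] :
    (tq R n e).order = -1 := by
  have h1 : (tq R n e).coeff (-1) ≠ 0 := by
    rw [coeff_tq_neg_one]
    exact one_ne_zero
  have hne : tq R n e ≠ 0 := by
    intro h0
    apply h1
    rw [h0, HahnSeries.coeff_zero]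
  refine le_antisymm (HahnSeries.order_le_of_coeff_ne_zero h1) ?_
  by_contra hlt
  rw [not_le] at hlt
  exact hne (HahnSeries.coeff_order_eq_zero.1 (coeff_tq_of_lt R n e hlt))

theorem tq_ne_zero' (R : Type*) [CommRing R] [Nontrivial R] (n e : ℕ) [NeZero n] :
    tq R n e ≠ 0 := by
  intro h0
  have h1 := coeff_tq_neg_one R n e
  rw [h0, HahnSeries.coeff_zero] at h1
  exact zero_ne_one h1

/-! ### Integral expansions -/

variable {K : Type*} [Field K] {F : Type*} [Field F]
variable {A : ValuationSubring K} {e : F →+* LaurentSeries K}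

/-- `f` with an `A`-integral expansion `e f = a` is represented by `(a, 1)`. -/
theorem isIntRep_of_eq_embA {f : F} {a : LaurentSeries ↥A} (h : e f = embA A a) :
    IsIntRep A e f a 1 := by
  refine ⟨by rw [map_one]; exact one_ne_zero, ?_⟩
  rw [map_one, mul_one, h]

/-- an element with an `A`-integral expansion lies in the Gauss ring. -/
theorem mem_gaussSub_of_eq_embA {f : F} {a : LaurentSeries ↥A} (h : e f = embA A a) :
    f ∈ gaussSub A e :=
  ⟨a, 1, isIntRep_of_eq_embA h⟩

/-- the residue of an element with an `A`-integral expansion is the reduction of the expansion. -/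
theorem gaussRes_of_eq_embA {w : gaussSub A e} {a : LaurentSeries ↥A}
    (h : e (w : F) = embA A a) : gaussRes A e w = redA A a := by
  rw [gaussRes_eq (isIntRep_of_eq_embA h), map_one, div_one]

/-- the residue of an element with expansion `tq K n e'` is `tq κ n e'`. -/
theorem gaussRes_of_eq_tq {w : gaussSub A e} {n e' : ℕ} [NeZero n]
    (h : e (w : F) = tq K n e') : gaussRes A e w = tq (Kap A) n e' := by
  have h' : e (w : F) = embA A (tq ↥A n e') := by
    rw [h, embA, coeffMap_tq]
  rw [gaussRes_of_eq_embA h', redA, coeffMap_tq]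

/-- **order `-1`**: an element of the Gauss ring with expansion `tq K n e'`. -/
theorem order_gaussRes_of_eq_tq {w : gaussSub A e} {n e' : ℕ} [NeZero n]
    (h : e (w : F) = tq K n e') : (gaussRes A e w).order = -1 := by
  rw [gaussRes_of_eq_tq h, order_tq]

/-- the inverse of an element with expansion `(tq K n e')⁻¹` lies in the Gauss ring. -/
theorem inv_mem_gaussSub_of_eq_tq_inv {f : F} {n e' : ℕ} [NeZero n]
    (h : e f = (tq K n e')⁻¹) : f⁻¹ ∈ gaussSub A e := by
  have h' : e f⁻¹ = embA A (tq ↥A n e') := by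
    rw [map_inv₀, h, inv_inv, embA, coeffMap_tq]
  exact mem_gaussSub_of_eq_embA h'

/-- **order `1`**: an element of the Gauss ring with expansion `(tq K n e')⁻¹`. -/
theorem order_gaussRes_of_eq_tq_inv {w : gaussSub A e} {n e' : ℕ} [NeZero n]
    (h : e (w : F) = (tq K n e')⁻¹) : (gaussRes A e w).order = 1 := by
  have hinv : e ((w : F)⁻¹) = tq K n e' := by rw [map_inv₀, h, inv_inv]
  set w' : gaussSub A e := ⟨(w : F)⁻¹, inv_mem_gaussSub_of_eq_tq_inv h⟩ with hw'
  have hw0 : (w : F) ≠ 0 := by
    intro h0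
    rw [h0, map_zero] at h
    exact inv_ne_zero (tq_ne_zero' K n e') h.symm
  have hmul : w * w' = 1 := by
    apply Subtype.ext
    show (w : F) * (w : F)⁻¹ = 1
    exact mul_inv_cancel₀ hw0
  have hres : gaussRes A e w * gaussRes A e w' = 1 := by
    rw [← map_mul, hmul, map_one]
  have h1 : gaussRes A e w' = tq (Kap A) n e' := gaussRes_of_eq_tq (w := w') hinv
  have hne : gaussRes A e w ≠ 0 := left_ne_zero_of_mul_eq_one hres
  have hne' : gaussRes A e w' ≠ 0 := right_ne_zero_of_mul_eq_one hres
  have hord := HahnSeries.order_mul hne hne'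
  rw [hres, HahnSeries.order_one, h1, order_tq] at hord
  omega

/-! ### The hypotheses `huv0`, `huv1` of the hub theorem -/

/-- `p ∤ ord(ū) - ord(v̄)` for `u` with expansion `t` and `v` with residue `1`. -/
theorem not_dvd_order_sub_of_eq_tq {p : ℕ} (hp : p.Prime) {u v : gaussSub A e} {n e' : ℕ}
    [NeZero n] (hu : e (u : F) = tq K n e') (hv : gaussRes A e v = 1) :
    ¬ (p : ℤ) ∣ (gaussRes A e u).order - (gaussRes A e v).order := by
  rw [order_gaussRes_of_eq_tq hu, hv, HahnSeries.order_one, sub_zero]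
  intro h
  have h1 : (p : ℤ) ∣ 1 := (dvd_neg (a := (p : ℤ)) (b := 1)).1 h
  have h2 : p ∣ 1 := by exact_mod_cast h1
  exact hp.one_lt.ne' (Nat.dvd_one.1 h2)

/-- `p ∤ ord(ū) - ord(v̄)` for `u` with expansion `t⁻¹` and `v` with residue `1`. -/
theorem not_dvd_order_sub_of_eq_tq_inv {p : ℕ} (hp : p.Prime) {u v : gaussSub A e} {n e' : ℕ}
    [NeZero n] (hu : e (u : F) = (tq K n e')⁻¹) (hv : gaussRes A e v = 1) :
    ¬ (p : ℤ) ∣ (gaussRes A e u).order - (gaussRes A e v).order := by
  rw [order_gaussRes_of_eq_tq_inv hu, hv, HahnSeries.order_one, sub_zero]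
  intro h1
  have h2 : p ∣ 1 := by exact_mod_cast h1
  exact hp.one_lt.ne' (Nat.dvd_one.1 h2)

/-- the residue of an element of the Gauss ring is nonzero when its order is nonzero. -/
theorem gaussRes_ne_zero_of_eq_tq {w : gaussSub A e} {n e' : ℕ} [NeZero n]
    (h : e (w : F) = tq K n e') : gaussRes A e w ≠ 0 := by
  rw [gaussRes_of_eq_tq h]
  exact tq_ne_zero' _ n e'

theorem gaussRes_ne_zero_of_eq_tq_inv {w : gaussSub A e} {n e' : ℕ} [NeZero n]
    (h : e (w : F) = (tq K n e')⁻¹) : gaussRes A e w ≠ 0 := by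
  intro h0
  have h1 := order_gaussRes_of_eq_tq_inv (A := A) h
  rw [h0, HahnSeries.order_zero] at h1
  exact zero_ne_one h1

end Fermat.Agent.T1B.TorusInst21
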