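/-
Programme T1B (row 38 via S44), brick TORUS-INST (helper85's `Ker85.AsmHub`), item (4) (helper21):
**THE ELEMENTS `t`, `y = t(q^p)` AND THEIR EXPANSIONS ON THE TWO SIDES** (concrete part).

`N = M' * p`, `L ⊂ ℚ̄` any field with `ht : tq L n e ∈ FK M' L`, `tN = α t`, `yN = β t`
(`ES/N34/ModelDefs9`), `bc := PlaceExtend27.baseChangeHom N L : FK N L →+* FF N` (coefficientwise),
the two expansions `iotaHom N` (cusp `∞`, side `0`) and `Wp M' p` (Atkin–Lehner, side `1`):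

* `iotaHom_bc_tN`   : `iotaHom N (bc tN) = tq ℚ̄ n e`                 (order `-1` on side `0`);
* `iotaHom_bc_yN`   : `iotaHom N (bc yN) = (tq ℚ̄ n e)(q^p)`;
* `Wp_bc_yN`        : `Wp (bc yN) = tq ℚ̄ n e`                          (order `-1` on side `1`);
* `Wp_bc_tN`        : `Wp (bc tN) = (tq ℚ̄ n e)(q^p)`;
* the inverse forms, and the four `order_gaussRes_*`, `not_dvd_*` statements in the shape of
  `huv0`/`huv1` of `Ker85.mem_J1L_of_dl_eq_zero_hub` (`u = t` resp. `y`, `v = 1` on chart `0`;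
  `u = t⁻¹` resp. `y⁻¹`, `v = 1` on chart `1`).
-/
import Mathlib
import Fermat.Agent.T1B.TorusInst21.OrdAbs
import Fermat.Agent.T1B.ALP90.AL1
import Fermat.Agent.T1B.Hecke3.DeltaX0
import Fermat.Agent.ES.N34.ModelDefs9
import Fermat.Agent.ES.N35.NormBC1

set_option autoImplicit false
set_option linter.unusedSectionVars false

noncomputable section

namespace Fermat.Agent.T1B.TorusInst21

open HahnSeries ModularCurve IntermediateField
open Fermat.Agent.X0 Fermat.Agent.RED.Interface4 Fermat.Agent.RED.DESC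
open Fermat.Agent.RED.BASE.EtaQuot12 Fermat.Agent.ES.N34.ModelDefs9
open Fermat.Agent.T1B.Hecke3 Fermat.Agent.T1B.ALP90.AL1

variable (M' p : ℕ) [NeZero M'] [NeZero p] (L : IntermediateField ℚ Qbar) {n e : ℕ} [NeZero n]

/-- coefficientwise base change of `tM`. -/
theorem coe_bc_tM (ht : tq (↥L) n e ∈ FK M' L) :
    ((PlaceExtend27.baseChangeHom M' L (tM ht) : Fbar M') : LaurentSeries Qbar) = tq Qbar n e := by
  rw [PlaceExtend27.coe_baseChangeHom, coe_tM, coeffMap_tq]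

/-- `bc (α t) = α (bc t)`. -/
theorem bc_tN (ht : tq (↥L) n e ∈ FK M' L) :
    PlaceExtend27.baseChangeHom (M' * p) L (tN p ht) =
      heckeAlphaBar Qbar M' p (PlaceExtend27.baseChangeHom M' L (tM ht)) :=
  Fermat.Agent.ES.N35.NormBC1.baseChangeHom_alpha L M' p (tM ht)

/-- `bc (β t) = β (bc t)`. -/
theorem bc_yN (ht : tq (↥L) n e ∈ FK M' L) :
    PlaceExtend27.baseChangeHom (M' * p) L (yN p ht) =
      heckeBetaBar Qbar M' p (PlaceExtend27.baseChangeHom M' L (tM ht)) :=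
  Fermat.Agent.ES.N35.NormBC1.baseChangeHom_beta L M' p (tM ht)

/-- side `0`: the expansion at `∞` of `t`. -/
theorem iotaHom_bc_tN (ht : tq (↥L) n e ∈ FK M' L) :
    iotaHom (M' * p) (PlaceExtend27.baseChangeHom (M' * p) L (tN p ht)) = tq Qbar n e := by
  rw [iotaHom_apply, PlaceExtend27.coe_baseChangeHom, coe_tN, coeffMap_tq]

/-- side `0`: the expansion at `∞` of `y`. -/
theorem iotaHom_bc_yN (ht : tq (↥L) n e ∈ FK M' L) :
    iotaHom (M' * p) (PlaceExtend27.baseChangeHom (M' * p) L (yN p ht)) =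
      qExpand Qbar p (tq Qbar n e) := by
  rw [iotaHom_apply, PlaceExtend27.coe_baseChangeHom, coe_yN, ModularCurve.coeffMap_qExpand,
    coeffMap_tq]

/-- side `1`: the Atkin–Lehner expansion of `y`. -/
theorem Wp_bc_yN (hp : p.Prime) (hpM : ¬ p ∣ M') (ht : tq (↥L) n e ∈ FK M' L) :
    Wp M' p hp hpM (PlaceExtend27.baseChangeHom (M' * p) L (yN p ht)) = tq Qbar n e := by
  rw [bc_yN, Wp_beta, coe_bc_tM]

/-- side `1`: the Atkin–Lehner expansion of `t`. -/
theorem Wp_bc_tN (hp : p.Prime) (hpM : ¬ p ∣ M') (ht : tq (↥L) n e ∈ FK M' L) :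
    Wp M' p hp hpM (PlaceExtend27.baseChangeHom (M' * p) L (tN p ht)) =
      qExpand Qbar p (tq Qbar n e) := by
  rw [bc_tN, Wp_alpha, coe_bc_tM]

/-- side `0`, chart `1`: the expansion at `∞` of `t⁻¹`. -/
theorem iotaHom_bc_tN_inv (ht : tq (↥L) n e ∈ FK M' L) :
    iotaHom (M' * p) (PlaceExtend27.baseChangeHom (M' * p) L (tN p ht)⁻¹) = (tq Qbar n e)⁻¹ := by
  rw [map_inv₀, map_inv₀, iotaHom_bc_tN]

/-- side `1`, chart `1`: the Atkin–Lehner expansion of `y⁻¹`. -/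
theorem Wp_bc_yN_inv (hp : p.Prime) (hpM : ¬ p ∣ M') (ht : tq (↥L) n e ∈ FK M' L) :
    Wp M' p hp hpM (PlaceExtend27.baseChangeHom (M' * p) L (yN p ht)⁻¹) = (tq Qbar n e)⁻¹ := by
  rw [map_inv₀, map_inv₀, Wp_bc_yN]

/-! ### The residue orders, in the shape of `huv0`/`huv1` -/

variable (A : ValuationSubring Qbar)

/-- side `0`, chart `0`: `ord (res t) = -1`. -/
theorem order_gaussRes_iota_tN (ht : tq (↥L) n e ∈ FK M' L)
    {w : gaussSub A (iotaHom (M' * p))}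
    (hw : (w : FF (M' * p)) = PlaceExtend27.baseChangeHom (M' * p) L (tN p ht)) :
    (gaussRes A (iotaHom (M' * p)) w).order = -1 :=
  order_gaussRes_of_eq_tq (by rw [hw, iotaHom_bc_tN])

/-- side `0`, chart `1`: `ord (res t⁻¹) = 1`. -/
theorem order_gaussRes_iota_tN_inv (ht : tq (↥L) n e ∈ FK M' L)
    {w : gaussSub A (iotaHom (M' * p))}
    (hw : (w : FF (M' * p)) = PlaceExtend27.baseChangeHom (M' * p) L (tN p ht)⁻¹) :
    (gaussRes A (iotaHom (M' * p)) w).order = 1 :=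
  order_gaussRes_of_eq_tq_inv (by rw [hw, iotaHom_bc_tN_inv])

/-- side `1`, chart `0`: `ord (res y) = -1`. -/
theorem order_gaussRes_Wp_yN (hp : p.Prime) (hpM : ¬ p ∣ M') (ht : tq (↥L) n e ∈ FK M' L)
    {w : gaussSub A (Wp M' p hp hpM)}
    (hw : (w : FF (M' * p)) = PlaceExtend27.baseChangeHom (M' * p) L (yN p ht)) :
    (gaussRes A (Wp M' p hp hpM) w).order = -1 :=
  order_gaussRes_of_eq_tq (by rw [hw, Wp_bc_yN])

/-- side `1`, chart `1`: `ord (res y⁻¹) = 1`. -/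
theorem order_gaussRes_Wp_yN_inv (hp : p.Prime) (hpM : ¬ p ∣ M') (ht : tq (↥L) n e ∈ FK M' L)
    {w : gaussSub A (Wp M' p hp hpM)}
    (hw : (w : FF (M' * p)) = PlaceExtend27.baseChangeHom (M' * p) L (yN p ht)⁻¹) :
    (gaussRes A (Wp M' p hp hpM) w).order = 1 :=
  order_gaussRes_of_eq_tq_inv (by rw [hw, Wp_bc_yN_inv])

/-- `huv0` at side `0`: `u = t`, `v` with residue `1` (e.g. `v = 1`). -/
theorem not_dvd_iota_tN (hp : p.Prime) (ht : tq (↥L) n e ∈ FK M' L)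
    {u v : gaussSub A (iotaHom (M' * p))}
    (hu : (u : FF (M' * p)) = PlaceExtend27.baseChangeHom (M' * p) L (tN p ht))
    (hv : gaussRes A (iotaHom (M' * p)) v = 1) :
    ¬ (p : ℤ) ∣ (gaussRes A (iotaHom (M' * p)) u).order -
      (gaussRes A (iotaHom (M' * p)) v).order :=
  not_dvd_order_sub_of_eq_tq hp (by rw [hu, iotaHom_bc_tN]) hv

/-- `huv1` at side `0`: `u = t⁻¹`, `v` with residue `1`. -/
theorem not_dvd_iota_tN_inv (hp : p.Prime) (ht : tq (↥L) n e ∈ FK M' L)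
    {u v : gaussSub A (iotaHom (M' * p))}
    (hu : (u : FF (M' * p)) = PlaceExtend27.baseChangeHom (M' * p) L (tN p ht)⁻¹)
    (hv : gaussRes A (iotaHom (M' * p)) v = 1) :
    ¬ (p : ℤ) ∣ (gaussRes A (iotaHom (M' * p)) u).order -
      (gaussRes A (iotaHom (M' * p)) v).order :=
  not_dvd_order_sub_of_eq_tq_inv hp (by rw [hu, iotaHom_bc_tN_inv]) hv

/-- `huv0` at side `1`: `u = y`, `v` with residue `1`. -/
theorem not_dvd_Wp_yN (hp : p.Prime) (hpM : ¬ p ∣ M') (ht : tq (↥L) n e ∈ FK M' L)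
    {u v : gaussSub A (Wp M' p hp hpM)}
    (hu : (u : FF (M' * p)) = PlaceExtend27.baseChangeHom (M' * p) L (yN p ht))
    (hv : gaussRes A (Wp M' p hp hpM) v = 1) :
    ¬ (p : ℤ) ∣ (gaussRes A (Wp M' p hp hpM) u).order -
      (gaussRes A (Wp M' p hp hpM) v).order :=
  not_dvd_order_sub_of_eq_tq hp (by rw [hu, Wp_bc_yN]) hv

/-- `huv1` at side `1`: `u = y⁻¹`, `v` with residue `1`. -/
theorem not_dvd_Wp_yN_inv (hp : p.Prime) (hpM : ¬ p ∣ M') (ht : tq (↥L) n e ∈ FK M' L)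
    {u v : gaussSub A (Wp M' p hp hpM)}
    (hu : (u : FF (M' * p)) = PlaceExtend27.baseChangeHom (M' * p) L (yN p ht)⁻¹)
    (hv : gaussRes A (Wp M' p hp hpM) v = 1) :
    ¬ (p : ℤ) ∣ (gaussRes A (Wp M' p hp hpM) u).order -
      (gaussRes A (Wp M' p hp hpM) v).order :=
  not_dvd_order_sub_of_eq_tq_inv hp (by rw [hu, Wp_bc_yN_inv]) hv

end Fermat.Agent.T1B.TorusInst21
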