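/-
Programme T1B (row 38 via S44), brick TORUS-INST (helper85's `Ker85.AsmHub`), item (4) (helper21):
**THE ELEMENTS `u_j i`, `v_j i` OF `Ker85.mem_J1L_of_dl_eq_zero_hub` ON THE NODAL HUB.**

Setting of `Ker85.AsmHub` with `F' = FK (M' p) L`, `F = FF (M' p)`, `ψ = baseChangeHom (M' p) L`,
`K = ℚ̄`, `V = A`, `e 0 = iotaHom` (cusp `∞`), `e 1 = W_p` (Atkin–Lehner).  With
`t = tN p ht`, `y = yN p ht` (`ES/N34/ModelDefs9`) and `t, y ∈ B0'`, `t⁻¹, y⁻¹ ∈ B1'`: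

  `u0 = ![e0⁻¹ t, e0⁻¹ y]`, `v0 = 1`, `u1 = ![e1⁻¹ t⁻¹, e1⁻¹ y⁻¹]`, `v1 = 1`

satisfy `hu0 hv0 huv0 hu1 hv1 huv1` of the hub theorem (`exists_ord_elts`).  The residue of `u_j i`
along the expansion `e i` is `t̄^{±1} = q^{∓1} + …`, of order `∓ 1`.
-/
import Mathlib
import Fermat.Agent.T1B.TorusInst21.OrdConcrete
import Fermat.Agent.T1B.Ker85.GaussCentre

set_option autoImplicit false
set_option linter.unusedSectionVars false
set_option linter.style.haveILetI false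

open TensorProduct

noncomputable section

namespace Fermat.Agent.T1B.TorusInst21

open HahnSeries ModularCurve IntermediateField
open Fermat.Agent.X0 Fermat.Agent.RED.Interface4 Fermat.Agent.RED.DESC
open Fermat.Agent.RED.BASE.EtaQuot12 Fermat.Agent.ES.N34.ModelDefs9
open Fermat.Agent.T1B.Hecke3 Fermat.Agent.T1B.ALP90.AL1
open Fermat.Agent.T1B.NodalFacts23 Fermat.Agent.T1B.RedN3 Fermat.Agent.T1B.Ker85
open Fermat.Agent.ES.N34.NodalCore13 Fermat.Agent.Jac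
open Fermat.Agent.Jac.BaseChange75
open scoped Fermat.Agent.Jac.BaseChange75
open Fermat.Agent.T1.ModelCoh30 (ρ0 ρ1)

/-! ### Generic hub: the coercion of `gaussLift` on the two charts -/

section Generic

universe u v w

variable {W O : Type u} [CommRing W] [CommRing O] [Algebra W O]
  {B0 B1 B01 : Type u} [CommRing B0] [CommRing B1] [CommRing B01]
  [Algebra W B0] [Algebra W B1] [Algebra W B01] [Algebra B0 B01] [Algebra B1 B01]
  [IsScalarTower W B0 B01] [IsScalarTower W B1 B01]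
  {F' : Type u} [Field F'] [Algebra O F']
  {B0' B1' : Subalgebra O F'}
  (e0 : (O ⊗[W] B0) ≃ₐ[O] ↥B0') (e1 : (O ⊗[W] B1) ≃ₐ[O] ↥B1')
  (e01 : (O ⊗[W] B01) ≃ₐ[O] ↥(B0' ⊔ B1'))
  (h0 : ∀ x : O ⊗[W] B0, e01 (algebraMap (O ⊗[W] B0) (O ⊗[W] B01) x) = ρ0 B0' B1' (e0 x))
  (h1 : ∀ x : O ⊗[W] B1, e01 (algebraMap (O ⊗[W] B1) (O ⊗[W] B01) x) = ρ1 B0' B1' (e1 x))
  {F : Type v} [Field F] [Algebra (O ⊗[W] B01) F]
  {K : Type w} [Field K] (V : ValuationSubring K) (e : F →+* LaurentSeries K)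
  (ψ : F' →+* F)
  (hF : ∀ z : O ⊗[W] B01, algebraMap (O ⊗[W] B01) F z = ψ ((e01 z : ↥(B0' ⊔ B1')) : F'))

include h0 hF in
/-- the function attached to an element of the chart `0`. -/
theorem coe_gaussLift_chart0 (hmem : ∀ z : O ⊗[W] B01, algebraMap (O ⊗[W] B01) F z ∈ gaussSub V e)
    (x : O ⊗[W] B0) :
    ((gaussLift V e hmem (algebraMap (O ⊗[W] B0) (O ⊗[W] B01) x) : gaussSub V e) : F) =
      ψ ((e0 x : ↥B0') : F') := by
  rw [coe_gaussLift, hF, h0]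
  rfl

include h1 hF in
/-- the function attached to an element of the chart `1`. -/
theorem coe_gaussLift_chart1 (hmem : ∀ z : O ⊗[W] B01, algebraMap (O ⊗[W] B01) F z ∈ gaussSub V e)
    (x : O ⊗[W] B1) :
    ((gaussLift V e hmem (algebraMap (O ⊗[W] B1) (O ⊗[W] B01) x) : gaussSub V e) : F) =
      ψ ((e1 x : ↥B1') : F') := by
  rw [coe_gaussLift, hF, h1]
  rfl

end Generic

/-! ### The nodal hub -/

section Hub

variable {W O : Type} [CommRing W] [CommRing O] [Algebra W O]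
  {B0 B1 B01 : Type} [CommRing B0] [CommRing B1] [CommRing B01]
  [Algebra W B0] [Algebra W B1] [Algebra W B01] [Algebra B0 B01] [Algebra B1 B01]
  [IsScalarTower W B0 B01] [IsScalarTower W B1 B01]
  (c0 : TwoChart W B0 B1 B01)
  (M' p : ℕ) [NeZero M'] [NeZero p] (L : IntermediateField ℚ Qbar) {n e' : ℕ} [NeZero n]
  [Algebra O ↥(FK (M' * p) L)]
  {π' : O} {t' : ↥(FK (M' * p) L)} {B0' B1' : Subalgebra O ↥(FK (M' * p) L)}
  {O1' O2' : ValuationSubring ↥(FK (M' * p) L)}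
  (Mo : NodalTwoChartModel O ↥(FK (M' * p) L) π' t' B0' B1' O1' O2')
  (e0 : (O ⊗[W] B0) ≃ₐ[O] ↥B0') (e1 : (O ⊗[W] B1) ≃ₐ[O] ↥B1')
  (e01 : (O ⊗[W] B01) ≃ₐ[O] ↥(B0' ⊔ B1'))
  (h0 : ∀ x : O ⊗[W] B0, e01 (algebraMap (O ⊗[W] B0) (O ⊗[W] B01) x) = ρ0 B0' B1' (e0 x))
  (h1 : ∀ x : O ⊗[W] B1, e01 (algebraMap (O ⊗[W] B1) (O ⊗[W] B01) x) = ρ1 B0' B1' (e1 x))
  [Algebra (O ⊗[W] B01) (FF (M' * p))]
  (A : ValuationSubring Qbar) (e : Fin 2 → FF (M' * p) →+* LaurentSeries Qbar)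
  (hp : p.Prime) (hpM : ¬ p ∣ M')
  (he0 : e 0 = iotaHom (M' * p)) (he1 : e 1 = Wp M' p hp hpM)
  (hF : ∀ z : O ⊗[W] B01, algebraMap (O ⊗[W] B01) (FF (M' * p)) z =
    PlaceExtend27.baseChangeHom (M' * p) L ((e01 z : ↥(B0' ⊔ B1')) : ↥(FK (M' * p) L)))
  (hO : ∀ (i : Fin 2) (x : ↥(FK (M' * p) L)),
    x ∈ comp O1' O2' i ↔ PlaceExtend27.baseChangeHom (M' * p) L x ∈ gaussSub A (e i))
  (ht : tq (↥L) n e' ∈ FK M' L)

/-- the function `t` on side `0`, `y` on side `1`: the element whose expansion along `e i` is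
`tq ℚ̄ n e'`. -/
def sideElt (i : Fin 2) : ↥(FK (M' * p) L) := if i = 0 then tN p ht else yN p ht

include he0 he1 in
theorem e_bc_sideElt (i : Fin 2) :
    e i (PlaceExtend27.baseChangeHom (M' * p) L (sideElt M' p L ht i)) = tq Qbar n e' := by
  fin_cases i
  · show e 0 (PlaceExtend27.baseChangeHom (M' * p) L (sideElt M' p L ht 0)) = _
    rw [he0, sideElt, if_pos rfl, iotaHom_bc_tN]
  · show e 1 (PlaceExtend27.baseChangeHom (M' * p) L (sideElt M' p L ht 1)) = _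
    rw [he1, sideElt, if_neg (by decide), Wp_bc_yN]

include he0 he1 in
theorem e_bc_sideElt_inv (i : Fin 2) :
    e i (PlaceExtend27.baseChangeHom (M' * p) L (sideElt M' p L ht i)⁻¹) = (tq Qbar n e')⁻¹ := by
  rw [map_inv₀, map_inv₀, e_bc_sideElt M' p L e hp hpM he0 he1 ht i]

include Mo he0 he1 hF hO h0 h1 in
/-- **Item (4) of TORUS-INST**: the elements `u0 v0 u1 v1` of `Ker85.mem_J1L_of_dl_eq_zero_hub`
with all six hypotheses `hu0 hv0 huv0 hu1 hv1 huv1` (for every proof `hmem` of Gauss-integrality of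
the charts, in particular `Ker85.algebraMap_mem_gaussSub_of_equiv`). -/
theorem exists_ord_elts
    (htB0 : tN p ht ∈ B0') (hyB0 : yN p ht ∈ B0')
    (htB1 : (tN p ht)⁻¹ ∈ B1') (hyB1 : (yN p ht)⁻¹ ∈ B1') :
    ∃ (u0 v0 : Fin 2 → O ⊗[W] B0) (u1 v1 : Fin 2 → O ⊗[W] B1),
      (∀ i, u0 i ∉ (nodalGood_of_equiv c0 Mo e0 e1 e01 h0 h1).P0 i) ∧
      (∀ i, v0 i ∉ (nodalGood_of_equiv c0 Mo e0 e1 e01 h0 h1).P0 i) ∧
      (∀ (hmem : ∀ (i : Fin 2) (z : O ⊗[W] B01),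
          algebraMap (O ⊗[W] B01) (FF (M' * p)) z ∈ gaussSub A (e i)) (i : Fin 2),
        ¬ (p : ℤ) ∣
          (gaussRes A (e i) (gaussLift A (e i) (hmem i)
            (algebraMap (O ⊗[W] B0) (O ⊗[W] B01) (u0 i)))).order -
          (gaussRes A (e i) (gaussLift A (e i) (hmem i)
            (algebraMap (O ⊗[W] B0) (O ⊗[W] B01) (v0 i)))).order) ∧
      (∀ i, u1 i ∉ (nodalGood_of_equiv c0 Mo e0 e1 e01 h0 h1).P1 i) ∧
      (∀ i, v1 i ∉ (nodalGood_of_equiv c0 Mo e0 e1 e01 h0 h1).P1 i) ∧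
      (∀ (hmem : ∀ (i : Fin 2) (z : O ⊗[W] B01),
          algebraMap (O ⊗[W] B01) (FF (M' * p)) z ∈ gaussSub A (e i)) (i : Fin 2),
        ¬ (p : ℤ) ∣
          (gaussRes A (e i) (gaussLift A (e i) (hmem i)
            (algebraMap (O ⊗[W] B1) (O ⊗[W] B01) (u1 i)))).order -
          (gaussRes A (e i) (gaussLift A (e i) (hmem i)
            (algebraMap (O ⊗[W] B1) (O ⊗[W] B01) (v1 i)))).order) := by
  -- Gauss-integrality of the charts
  have hmem0 : ∀ (i : Fin 2) (z : O ⊗[W] B01),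
      algebraMap (O ⊗[W] B01) (FF (M' * p)) z ∈ gaussSub A (e i) := by
    intro i z
    rw [hF, ← hO]
    exact le_comp01 Mo i _ (e01 z).2
  -- membership of the side elements
  have hs0 : ∀ i : Fin 2, sideElt M' p L ht i ∈ B0' := by
    intro i
    fin_cases i
    · exact htB0
    · exact hyB0
  have hs1 : ∀ i : Fin 2, (sideElt M' p L ht i)⁻¹ ∈ B1' := by
    intro i
    fin_cases i
    · exact htB1
    · exact hyB1
  let φ : ∀ i, (O ⊗[W] B01) →+* gaussSub A (e i) := fun i => gaussLift A (e i) (hmem0 i)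
  have hφ : ∀ i z, ((φ i z : gaussSub A (e i)) : FF (M' * p)) =
      algebraMap (O ⊗[W] B01) (FF (M' * p)) z := fun i z => rfl
  have hk0 := hker0_of_equiv c0 Mo e0 e1 e01 h0 h1 A e
    (PlaceExtend27.baseChangeHom (M' * p) L) hF hO φ hφ
  have hk1 := hker1_of_equiv c0 Mo e0 e1 e01 h0 h1 A e
    (PlaceExtend27.baseChangeHom (M' * p) L) hF hO φ hφ
  -- the expansions of the chosen elements
  have hexp0 : ∀ (hmem : ∀ (i : Fin 2) (z : O ⊗[W] B01),
      algebraMap (O ⊗[W] B01) (FF (M' * p)) z ∈ gaussSub A (e i)) (i : Fin 2),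
      e i ((gaussLift A (e i) (hmem i) (algebraMap (O ⊗[W] B0) (O ⊗[W] B01)
        (e0.symm ⟨sideElt M' p L ht i, hs0 i⟩)) : gaussSub A (e i)) : FF (M' * p)) =
        tq Qbar n e' := by
    intro hmem i
    rw [coe_gaussLift_chart0 e0 e01 h0 A (e i) (PlaceExtend27.baseChangeHom (M' * p) L) hF,
      e0.apply_symm_apply]
    exact e_bc_sideElt M' p L e hp hpM he0 he1 ht i
  have hexp1 : ∀ (hmem : ∀ (i : Fin 2) (z : O ⊗[W] B01),
      algebraMap (O ⊗[W] B01) (FF (M' * p)) z ∈ gaussSub A (e i)) (i : Fin 2),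
      e i ((gaussLift A (e i) (hmem i) (algebraMap (O ⊗[W] B1) (O ⊗[W] B01)
        (e1.symm ⟨(sideElt M' p L ht i)⁻¹, hs1 i⟩)) : gaussSub A (e i)) : FF (M' * p)) =
        (tq Qbar n e')⁻¹ := by
    intro hmem i
    rw [coe_gaussLift_chart1 e1 e01 h1 A (e i) (PlaceExtend27.baseChangeHom (M' * p) L) hF,
      e1.apply_symm_apply]
    exact e_bc_sideElt_inv M' p L e hp hpM he0 he1 ht i
  have hone0 : ∀ (hmem : ∀ (i : Fin 2) (z : O ⊗[W] B01),
      algebraMap (O ⊗[W] B01) (FF (M' * p)) z ∈ gaussSub A (e i)) (i : Fin 2),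
      gaussRes A (e i) (gaussLift A (e i) (hmem i)
        (algebraMap (O ⊗[W] B0) (O ⊗[W] B01) 1)) = 1 := by
    intro hmem i
    rw [map_one, map_one, map_one]
  have hone1 : ∀ (hmem : ∀ (i : Fin 2) (z : O ⊗[W] B01),
      algebraMap (O ⊗[W] B01) (FF (M' * p)) z ∈ gaussSub A (e i)) (i : Fin 2),
      gaussRes A (e i) (gaussLift A (e i) (hmem i)
        (algebraMap (O ⊗[W] B1) (O ⊗[W] B01) 1)) = 1 := by
    intro hmem i
    rw [map_one, map_one, map_one]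
  refine ⟨fun i => e0.symm ⟨sideElt M' p L ht i, hs0 i⟩, fun _ => 1,
    fun i => e1.symm ⟨(sideElt M' p L ht i)⁻¹, hs1 i⟩, fun _ => 1, ?_, ?_, ?_, ?_, ?_, ?_⟩
  · intro i hmemP
    exact gaussRes_ne_zero_of_eq_tq (hexp0 hmem0 i) ((hk0 i _).2 hmemP)
  · intro i hmemP
    have h := (hk0 i 1).2 hmemP
    rw [hone0 hmem0 i] at h
    exact one_ne_zero h
  · intro hmem i
    exact not_dvd_order_sub_of_eq_tq hp (hexp0 hmem i) (hone0 hmem i)
  · intro i hmemP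
    exact gaussRes_ne_zero_of_eq_tq_inv (hexp1 hmem0 i) ((hk1 i _).2 hmemP)
  · intro i hmemP
    have h := (hk1 i 1).2 hmemP
    rw [hone1 hmem0 i] at h
    exact one_ne_zero h
  · intro hmem i
    exact not_dvd_order_sub_of_eq_tq_inv hp (hexp1 hmem i) (hone1 hmem i)

end Hub

end Fermat.Agent.T1B.TorusInst21
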