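/-
Programme T1B (row 38 via S44), brick TORUS-INST (helper85's `Ker85.AsmHub`), small inputs (helper21):
`hroot`, `hK`, `hπ`, `hKp` of `Ker85.mem_J1L_of_dl_eq_zero_hub` for `O = AK A L`, `K = ℚ̄`.

* `hroot_AK` : the residue field of `A ∩ L` (`L` a number field, `A` over `p`) has `p`-th roots
  (it is finite of characteristic `p`);
* `hroot_of_finite` : the same for any finite field of characteristic `p`;
* `charP_residue` : `CharP (ResidueField (A ∩ L)) p`;
* `hK_Qbar` : `ℚ̄` has `p`-th roots;
* `hπ_of_isUnif`, `hKp_of_isUnif` : the two uniformiser hypotheses from `GaussGen8.IsUnif`.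
-/
import Mathlib
import Fermat.Agent.RED.DESC.NumberFieldDVR27
import Fermat.Agent.RED.PUR.GaussGen8

set_option autoImplicit false
set_option linter.unusedSectionVars false
set_option linter.style.haveILetI false

namespace Fermat.Agent.T1B.TorusInst21

open Fermat.Agent.RED.Interface4 Fermat.Agent.RED.DESC.NumberFieldDVR27
open Fermat.Agent.RED.PUR.GaussGen8

/-- a finite field of characteristic `p` has `p`-th roots. -/
theorem hroot_of_finite (k : Type*) [Field k] [Finite k] (p : ℕ) [Fact p.Prime] [CharP k p]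
    (d : k) : ∃ δ : k, δ ^ p = d := by
  obtain ⟨δ, hδ⟩ := surjective_frobenius k p d
  exact ⟨δ, hδ⟩

/-- **`hroot`** for `O = A ∩ L`. -/
theorem hroot_AK (A : ValuationSubring Qbar) (L : IntermediateField ℚ Qbar)
    [FiniteDimensional ℚ L] {p : ℕ} (hp : p.Prime) (hA : A.LiesOverPrime p)
    (d : IsLocalRing.ResidueField ↥(AK A L)) :
    ∃ δ : IsLocalRing.ResidueField ↥(AK A L), δ ^ p = d := by
  haveI : Fact p.Prime := ⟨hp⟩
  haveI : Finite (IsLocalRing.ResidueField ↥(AK A L)) := finite_residueField_AK A L hp.ne_zero hA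
  haveI : CharP (IsLocalRing.ResidueField ↥(AK A L)) p := charP_residueField_AK A L hp hA
  exact hroot_of_finite _ p d

/-- the residue field of `A ∩ L` has characteristic `p` (no finiteness needed). -/
theorem charP_residue (A : ValuationSubring Qbar) (L : IntermediateField ℚ Qbar)
    {p : ℕ} (hp : p.Prime) (hA : A.LiesOverPrime p) :
    CharP (IsLocalRing.ResidueField ↥(AK A L)) p :=
  charP_residueField_AK A L hp hA

/-- **`hK`**: `ℚ̄` has `p`-th roots. -/
theorem hK_Qbar {p : ℕ} (hp : p.Prime) (c : Qbar) : ∃ b : Qbar, b ^ p = c :=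
  IsAlgClosed.exists_pow_nat_eq c hp.pos

/-- **`hπ`** from `IsUnif`. -/
theorem hπ_of_isUnif {K : Type*} [Field K] {O : ValuationSubring K} {π : ↥O} (hπ : IsUnif O π) :
    IsLocalRing.maximalIdeal ↥O = Ideal.span {π} := hπ.max_eq

/-- **`hKp`** from `IsUnif`. -/
theorem hKp_of_isUnif {K : Type*} [Field K] {O : ValuationSubring K} {π : ↥O} (hπ : IsUnif O π) :
    RingHom.ker (algebraMap ↥O (IsLocalRing.ResidueField ↥O)) = Ideal.span {π} := by
  rw [← hπ.max_eq]
  exact IsLocalRing.ker_residue

end Fermat.Agent.T1B.TorusInst21
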