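/-
Programme T1B (row 38 via S44), brick TORUS-INST (helper85's `Ker85.AsmHub`), item (2) (helper21):
**THE TWO COMPONENTS ARE THE CENTRES OF THE TWO GAUSS VALUATIONS, ELEMENTWISE** (`hO`), and the
side inputs `H` (normalisability), `hι` (constants) of `Ker85.mem_J1L_of_dl_eq_zero_hub`.

`N = M' p`, `L ⊂ ℚ̄` a number field with `t ∈ FK M' L`, `j ∈ L(t)`, `A` over `p`, `e 0 = iotaHom N`,
`e 1 = W_p`:

* `hO_sides` : `x ∈ comp (O1 M' p hπ hE) (O2 M' p hπ hE) i ↔ baseChangeHom N L x ∈ gaussSub A (e i)`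
  (from helper77's `GaussW77.comap_gaussVal_iota_eq_O1 / comap_gaussVal_Wp_eq_O2`);
* `normalisable_sides` : `∀ i f, f ≠ 0 → Normalisable A (e i f)`;
* `const_sides` : `∀ i c, e i (algebraMap ℚ̄ (FF N) c) = C c`.
-/
import Mathlib
import Fermat.Agent.T1B.GaussW77.Wp
import Fermat.Agent.T1B.NodalFacts23.Good

set_option autoImplicit false
set_option linter.unusedSectionVars false

noncomputable section

namespace Fermat.Agent.T1B.TorusInst21

open HahnSeries ModularCurve IntermediateField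
open Fermat.Agent.X0 Fermat.Agent.RED.Interface4 Fermat.Agent.RED.PUR.GaussGen8
open Fermat.Agent.RED.DESC.PlaceExtend27 Fermat.Agent.RED.DESC.NumberFieldDVR27
open Fermat.Agent.RED.BASE.EtaQuot12 Fermat.Agent.RED.BASE.Hauptmodul12
open Fermat.Agent.RED.ModelTargets4
open Fermat.Agent.ES.N34.ModelDefs9
open Fermat.Agent.T1B.Hecke3 Fermat.Agent.T1B.ALP90.AL1 Fermat.Agent.T1B.GaussW77
open Fermat.Agent.T1B.NodalFacts23

variable {A : ValuationSubring Qbar} (M' p : ℕ) [NeZero M'] [NeZero p] {n e' : ℕ} [NeZero n]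
  (hp : p.Prime) (hpM : ¬ p ∣ M')
  (e : Fin 2 → FF (M' * p) →+* LaurentSeries Qbar)
  (he0 : e 0 = iotaHom (M' * p)) (he1 : e 1 = Wp M' p hp hpM)

include he0 he1 in
/-- **`H`**: every nonzero function is normalisable along both expansions. -/
theorem normalisable_sides (i : Fin 2) (f : FF (M' * p)) (hf : f ≠ 0) :
    Normalisable A (e i f) := by
  fin_cases i
  · show Normalisable A (e 0 f)
    rw [he0]
    exact normalisable_iota_all A (M' * p) f hf
  · show Normalisable A (e 1 f)
    rw [he1]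
    exact normalisable_Wp_all M' p hp hpM A f hf

include he0 he1 in
/-- **`hι`**: both expansions are the identity on constants. -/
theorem const_sides (i : Fin 2) (c : Qbar) :
    e i (algebraMap Qbar (FF (M' * p)) c) = HahnSeries.C c := by
  fin_cases i
  · show e 0 _ = _
    rw [he0, iotaHom_apply]
    show algebraMap Qbar (LaurentSeries Qbar) c = HahnSeries.C c
    rw [HahnSeries.C_apply]
    exact algebraMap_laurentSeries_eq_single Qbar c
  · show e 1 _ = _
    rw [he1]
    exact Wp_const M' p hp hpM c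

include he0 he1 in
/-- **`hO`**: the components of the nodal model over `L` are the restrictions of the two Gauss
rings. -/
theorem hO_sides (hA : A.LiesOverPrime p)
    (L : IntermediateField ℚ Qbar) [FiniteDimensional ℚ L] (ht : tq (↥L) n e' ∈ FK M' L)
    (hjt : jqModC (↥L) ∈ IntermediateField.adjoin (↥L) {tq (↥L) n e'})
    {π : ↥(AK A L)} (hπ : IsUnif (AK A L) π) (hE : FK (M' * p) L ≤ fracField (AK A L))
    (i : Fin 2) (x : ↥(FK (M' * p) L)) :
    x ∈ comp (O1 M' p hπ hE) (O2 M' p hπ hE) i ↔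
      baseChangeHom (M' * p) L x ∈ gaussSub A (e i) := by
  fin_cases i
  · show x ∈ comp (O1 M' p hπ hE) (O2 M' p hπ hE) 0 ↔ baseChangeHom (M' * p) L x ∈ gaussSub A (e 0)
    rw [comp_zero, he0, ← comap_gaussVal_iota_eq_O1 (A := A) M' p L hπ hE
      (normalisable_iota_all A (M' * p))]
    exact Iff.rfl
  · show x ∈ comp (O1 M' p hπ hE) (O2 M' p hπ hE) 1 ↔ baseChangeHom (M' * p) L x ∈ gaussSub A (e 1)
    rw [comp_one, he1, ← comap_gaussVal_Wp_eq_O2 (A := A) M' p hp hpM hA L ht hjt hπ hE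
      (normalisable_Wp_all M' p hp hpM A)]
    exact Iff.rfl

end Fermat.Agent.T1B.TorusInst21
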