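/-
Programme T1B (row 38 via S44), brick TORUS-INST (helper85's `Ker85.AsmHub`), item (1) (helper21):
**THE PER-LEVEL PACKAGE AT A NUMBER FIELD `L ∋ ζ_{M'}`** (ramified `L` allowed).

`ES/P36/ModelQAt4.items_four_at` needs only `ζ_{M'} ∈ L` and a Frobenius inverse on `L`
(`FrobInvAt A L p`), which exists for EVERY normal number field (`frobInvAt_of_normal`), ramified at
`p` or not.  So for every level `L` of `Local66.Union.NLevel` (finite normal `⊇ K ∋ ζ_{M'}`) the nodal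
model `NodalNumData` over `A ∩ L` exists, together with the side conditions used by TORUS-INST:

* `exists_level_pkg` : `∃ ht hE, j ∈ L(t) ∧ y ∈ B0 ∧ y⁻¹ ∈ B1 ∧ t ∈ B0 ∧ t⁻¹ ∈ B1 ∧ ∀ π hπ, NodalNumData …`;
* `exists_level_pkg_of_normal` : the same with `[Normal ℚ L]` instead of `FrobInvAt`.
-/
import Mathlib
import Fermat.Agent.ES.P36.ModelQAt4

set_option autoImplicit false
set_option synthInstance.maxHeartbeats 400000
set_option maxHeartbeats 1000000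
set_option linter.unusedSectionVars false

noncomputable section

open HahnSeries ModularCurve IntermediateField

namespace Fermat.Agent.T1B.TorusInst21

open Fermat.Agent.RED.Interface4 Fermat.Agent.RED.PUR.GaussGen8
  Fermat.Agent.RED.BASE.EtaQuot12 Fermat.Agent.RED.PUR.ChartGeneric22
  Fermat.Agent.RED.BASE.Hauptmodul12 Fermat.Agent.X0
  Fermat.Agent.ES.N34.ModelDefs9 Fermat.Agent.ES.N34.ModelN4
  Fermat.Agent.ES.N34.NumData13 Fermat.Agent.ES.P36.CoeffField4 Fermat.Agent.ES.P36.ModelQAt4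

variable {M' p : ℕ} [NeZero M'] [NeZero p] {A : ValuationSubring Qbar}
  {L : IntermediateField ℚ Qbar}

/-- **The per-level package** at a number field `L ∋ ζ_{M'}` with a Frobenius inverse. -/
theorem exists_level_pkg (hp : p.Prime) (hp2 : p ≠ 2) (hpM : ¬ p ∣ M') (hM : 4 ∣ M')
    (hA : A.LiesOverPrime p) [FiniteDimensional ℚ L] (hζ : zetaK M' ∈ L)
    (hF : FrobInvAt A L p) :
    ∃ (ht : tq (↥L) 4 8 ∈ FK M' L) (hE : FK (M' * p) L ≤ fracField (AK A L)),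
      jqModC (↥L) ∈ IntermediateField.adjoin (↥L) {tq (↥L) 4 8} ∧
      yN p ht ∈ B0 A p ht ∧ (yN p ht)⁻¹ ∈ B1 A p ht ∧
      tN p ht ∈ B0 A p ht ∧ (tN p ht)⁻¹ ∈ B1 A p ht ∧
      ∀ (π : ↥(AK A L)) (hπ : IsUnif (AK A L) π),
        NodalNumData ↥(AK A L) ↥L ↥(FK (M' * p) L) π (tN p ht) (B0 A p ht) (B1 A p ht)
          (O1 M' p hπ hE) (O2 M' p hπ hE) := by
  obtain ⟨h1, h2, h3, h4, h5⟩ := items_four_at hp hp2 hpM hM hA hζ hF
  obtain ⟨ht, hE, h⟩ := twoLevelInputs_of_items hp.two_le h1 h2 h3 h4 h5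
  have hB := Fermat.Agent.RED.BASE.Main12.baseExports baseHyp_four M' hM
  have htB0 : tN p ht ∈ B0 A p ht :=
    self_mem_chart (R := ↥(AK A L)) (tN p ht)
  have htB1 : (tN p ht)⁻¹ ∈ B1 A p ht :=
    self_mem_chart (R := ↥(AK A L)) (tN p ht)⁻¹
  have hj : jqModC (↥L) ∈ IntermediateField.adjoin (↥L) {tq (↥L) 4 8} :=
    j_mem_adjoin 4 8 hB.genBase L
  have hnum : ∀ (π : ↥(AK A L)) (hπ : IsUnif (AK A L) π),
      NodalNumData ↥(AK A L) ↥L ↥(FK (M' * p) L) π (tN p ht) (B0 A p ht) (B1 A p ht)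
        (O1 M' p hπ hE) (O2 M' p hπ hE) := fun π hπ => nodalNumData_of_inputs (h π hπ)
  exact ⟨ht, hE, hj, (h3 ht).1, (h3 ht).2, htB0, htB1, hnum⟩

/-- **The per-level package** at a NORMAL number field `L ∋ ζ_{M'}` (ramified or not). -/
theorem exists_level_pkg_of_normal (hp : p.Prime) (hp2 : p ≠ 2) (hpM : ¬ p ∣ M') (hM : 4 ∣ M')
    (hA : A.LiesOverPrime p) [FiniteDimensional ℚ L] [Normal ℚ L] (hζ : zetaK M' ∈ L) :
    ∃ (ht : tq (↥L) 4 8 ∈ FK M' L) (hE : FK (M' * p) L ≤ fracField (AK A L)),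
      jqModC (↥L) ∈ IntermediateField.adjoin (↥L) {tq (↥L) 4 8} ∧
      yN p ht ∈ B0 A p ht ∧ (yN p ht)⁻¹ ∈ B1 A p ht ∧
      tN p ht ∈ B0 A p ht ∧ (tN p ht)⁻¹ ∈ B1 A p ht ∧
      ∀ (π : ↥(AK A L)) (hπ : IsUnif (AK A L) π),
        NodalNumData ↥(AK A L) ↥L ↥(FK (M' * p) L) π (tN p ht) (B0 A p ht) (B1 A p ht)
          (O1 M' p hπ hE) (O2 M' p hπ hE) :=
  exists_level_pkg hp hp2 hpM hM hA hζ (frobInvAt_of_normal hp hA)

end Fermat.Agent.T1B.TorusInst21
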